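/-
S29 / DESC support (helper991): descent of membership in `laurentBaseChange` along a field
embedding `ι : K →+* Ω`:  a Laurent series with coefficients in `K` whose image lies in the
function field over `Ω` already lies in the function field over `K`.
Prelude + Mathlib only.
-/
import Mathlib
import Fermat.Prelude.Def_ModularCurve_LaurentCoeff

set_option autoImplicit false

namespace Fermat.Agent.S29.H991

open ModularCurve

section

variable {K Ω : Type*} [Field K] [Field Ω] [Algebra ℚ K] [Algebra ℚ Ω]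
variable (ι : K →+* Ω) (F₀ : IntermediateField ℚ (LaurentSeries ℚ))

theorem desc_coeffMap_coeffEmb (x : LaurentSeries ℚ) :
    coeffMap ι (coeffEmb K x) = coeffEmb Ω x := by
  rw [coeffEmb, coeffMap_coeffMap]
  exact coeffMap_congr (RingHom.ext fun c => ι.map_rat_algebraMap c) x

omit [Algebra ℚ K] [Algebra ℚ Ω] in
theorem desc_coeffMap_injective : Function.Injective (coeffMap ι) := by
  intro x y h
  ext k
  have := congrArg (fun z => z.coeff k) h
  simpa using ι.injective this

/-- Finite `Ω`-linear combinations of elements of `coeffEmb '' F₀`. -/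
def IsLinComb (x : LaurentSeries Ω) : Prop :=
  ∃ (n : ℕ) (c : Fin n → Ω) (f : Fin n → LaurentSeries ℚ), (∀ i, f i ∈ F₀) ∧
    x = ∑ i, HahnSeries.C (c i) * coeffEmb Ω (f i)

variable {F₀}

omit [Algebra ℚ K] in
theorem IsLinComb.add {x y : LaurentSeries Ω} (hx : IsLinComb (Ω := Ω) F₀ x)
    (hy : IsLinComb (Ω := Ω) F₀ y) : IsLinComb (Ω := Ω) F₀ (x + y) := by
  obtain ⟨n, c, f, hf, rfl⟩ := hx
  obtain ⟨m, d, g, hg, rfl⟩ := hy
  refine ⟨n + m, Fin.append c d, Fin.append f g, ?_, ?_⟩
  · intro i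
    refine Fin.addCases (fun i => ?_) (fun i => ?_) i
    · simpa using hf i
    · simpa using hg i
  · rw [Fin.sum_univ_add]
    simp

omit [Algebra ℚ K] in
theorem IsLinComb.C_mul (a : Ω) {x : LaurentSeries Ω} (hx : IsLinComb (Ω := Ω) F₀ x) :
    IsLinComb (Ω := Ω) F₀ (HahnSeries.C a * x) := by
  obtain ⟨n, c, f, hf, rfl⟩ := hx
  refine ⟨n, fun i => a * c i, f, hf, ?_⟩
  rw [Finset.mul_sum]
  refine Finset.sum_congr rfl fun i _ => ?_
  rw [map_mul, mul_assoc]

omit [Algebra ℚ K] in
theorem IsLinComb.mul_coeffEmb {x : LaurentSeries Ω} (hx : IsLinComb (Ω := Ω) F₀ x)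
    {g : LaurentSeries ℚ} (hg : g ∈ F₀) :
    IsLinComb (Ω := Ω) F₀ (x * coeffEmb Ω g) := by
  obtain ⟨n, c, f, hf, rfl⟩ := hx
  refine ⟨n, c, fun i => f i * g, fun i => F₀.mul_mem (hf i) hg, ?_⟩
  rw [Finset.sum_mul]
  refine Finset.sum_congr rfl fun i _ => ?_
  rw [map_mul, mul_assoc]

omit [Algebra ℚ K] in
theorem IsLinComb.zero : IsLinComb (Ω := Ω) F₀ 0 :=
  ⟨0, Fin.elim0, Fin.elim0, fun i => i.elim0, by simp⟩

omit [Algebra ℚ K] in
theorem IsLinComb.mul {x y : LaurentSeries Ω} (hx : IsLinComb (Ω := Ω) F₀ x)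
    (hy : IsLinComb (Ω := Ω) F₀ y) : IsLinComb (Ω := Ω) F₀ (x * y) := by
  obtain ⟨m, d, g, hg, rfl⟩ := hy
  rw [Finset.mul_sum]
  have : ∀ s : Finset (Fin m),
      IsLinComb (Ω := Ω) F₀ (∑ i ∈ s, x * (HahnSeries.C (d i) * coeffEmb Ω (g i))) := by
    intro s
    induction s using Finset.induction_on with
    | empty => simpa using IsLinComb.zero
    | insert a s ha ih =>
      rw [Finset.sum_insert ha]
      refine IsLinComb.add ?_ ih
      have : x * (HahnSeries.C (d a) * coeffEmb Ω (g a)) =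
          HahnSeries.C (d a) * (x * coeffEmb Ω (g a)) := by ring
      rw [this]
      exact (hx.mul_coeffEmb (hg a)).C_mul _
  exact this _

omit [Algebra ℚ K] in
theorem isLinComb_of_mem_adjoin {x : LaurentSeries Ω}
    (hx : x ∈ Algebra.adjoin Ω (⇑(coeffEmb Ω) '' (F₀ : Set (LaurentSeries ℚ)))) :
    IsLinComb (Ω := Ω) F₀ x := by
  induction hx using Algebra.adjoin_induction with
  | mem y hy =>
    obtain ⟨f, hf, rfl⟩ := hy
    exact ⟨1, fun _ => 1, fun _ => f, fun _ => hf, by simp⟩
  | algebraMap r =>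
    refine ⟨1, fun _ => r, fun _ => 1, fun _ => F₀.one_mem, ?_⟩
    rw [algebraMap_laurentSeries_eq_single]
    simp only [Finset.univ_unique, Fin.default_eq_zero, Fin.isValue, map_one, mul_one,
      Finset.sum_const, Finset.card_singleton, one_smul]
    rfl
  | add x y _ _ hx hy => exact hx.add hy
  | mul x y _ _ hx hy => exact hx.mul hy

omit [Algebra ℚ Ω] in
theorem desc_coeff_sum_C_mul {R : Type*} [Field R] {n : ℕ} (c : Fin n → R)
    (x : Fin n → LaurentSeries R) (k : ℤ) :
    (∑ i, HahnSeries.C (c i) * x i).coeff k = ∑ i, c i * (x i).coeff k := by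
  rw [HahnSeries.coeff_sum]
  refine Finset.sum_congr rfl fun i _ => ?_
  rw [HahnSeries.C_mul_eq_smul, HahnSeries.coeff_smul, smul_eq_mul]

theorem desc_sum_mem {n : ℕ} (c : Fin n → K) (f : Fin n → LaurentSeries ℚ)
    (hf : ∀ i, f i ∈ F₀) :
    (∑ i, HahnSeries.C (c i) * coeffEmb K (f i)) ∈ laurentBaseChange K F₀ := by
  refine sum_mem fun i _ => mul_mem ?_ (coeffEmb_mem_laurentBaseChange K (hf i))
  have : (HahnSeries.C (c i) : LaurentSeries K) = algebraMap K (LaurentSeries K) (c i) := by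
    rw [algebraMap_laurentSeries_eq_single]; rfl
  rw [this]
  exact (laurentBaseChange K F₀).algebraMap_mem _

/-- **Descent of membership.**  If the image under `ι : K → Ω` (coefficientwise) of a Laurent
series `y` over `K` lies in the base change of `F₀` to `Ω`, then `y` lies in the base change of
`F₀` to `K`. -/
theorem mem_laurentBaseChange_of_coeffMap_mem (y : LaurentSeries K)
    (h : coeffMap ι y ∈ laurentBaseChange Ω F₀) : y ∈ laurentBaseChange K F₀ := by
  obtain ⟨r, hr, s, hs, hrs⟩ := IntermediateField.mem_adjoin_iff_div.1 h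
  by_cases hs0 : s = 0
  · rw [hs0, div_zero] at hrs
    have : y = 0 := desc_coeffMap_injective ι (by rw [hrs, map_zero])
    rw [this]; exact zero_mem _
  obtain ⟨n, α, f, hf, rfl⟩ := isLinComb_of_mem_adjoin hr
  obtain ⟨m, β, g, hg, rfl⟩ := isLinComb_of_mem_adjoin hs
  have hmul : coeffMap ι y * (∑ j, HahnSeries.C (β j) * coeffEmb Ω (g j)) =
      ∑ i, HahnSeries.C (α i) * coeffEmb Ω (f i) := by
    rw [hrs, div_mul_cancel₀ _ hs0]
  obtain ⟨k₀, hk₀⟩ : ∃ k₀, (∑ j, HahnSeries.C (β j) * coeffEmb Ω (g j)).coeff k₀ ≠ 0 := by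
    by_contra hcon
    push Not at hcon
    exact hs0 (HahnSeries.ext (funext hcon))
  let _ : Algebra K Ω := ι.toAlgebra
  have hsmul : ∀ (c : K) (v : Ω), c • v = ι c * v := fun c v => rfl
  -- a `K`-linear functional not vanishing at the coefficient `s_{k₀}`
  obtain ⟨lam, hlam⟩ : ∃ lam : Ω →ₗ[K] K,
      lam ((∑ j, HahnSeries.C (β j) * coeffEmb Ω (g j)).coeff k₀) = 1 := by
    set v := (∑ j, HahnSeries.C (β j) * coeffEmb Ω (g j)).coeff k₀ with hv
    have hinj : LinearMap.ker (LinearMap.toSpanSingleton K Ω v) = ⊥ :=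
      LinearMap.ker_toSpanSingleton K hk₀
    obtain ⟨gl, hgl⟩ := LinearMap.exists_leftInverse_of_injective _ hinj
    refine ⟨gl, ?_⟩
    have := congrArg (fun φ => φ (1 : K)) hgl
    simpa using this
  have hlin : ∀ (b : Ω) (c : K), lam (b * ι c) = lam b * c := by
    intro b c
    have : b * ι c = c • b := by rw [hsmul, mul_comm]
    rw [this, map_smul, smul_eq_mul, mul_comm]
  set R : LaurentSeries K := ∑ i, HahnSeries.C (lam (α i)) * coeffEmb K (f i) with hR
  set S : LaurentSeries K := ∑ j, HahnSeries.C (lam (β j)) * coeffEmb K (g j) with hS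
  have hRmem : R ∈ laurentBaseChange K F₀ := desc_sum_mem _ _ hf
  have hSmem : S ∈ laurentBaseChange K F₀ := desc_sum_mem _ _ hg
  -- the key identity `y * S = R`
  have hkey : y * S = R := by
    have h1 : ∀ k : ℤ, (∑ j, β j * ι ((y * coeffEmb K (g j)).coeff k)) =
        ∑ i, α i * ι ((coeffEmb K (f i)).coeff k) := by
      intro k
      have h2 : (coeffMap ι y * ∑ j, HahnSeries.C (β j) * coeffEmb Ω (g j)).coeff k =
          (∑ i, HahnSeries.C (α i) * coeffEmb Ω (f i)).coeff k := by rw [hmul]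
      rw [Finset.mul_sum] at h2
      have h3 : ∀ j, coeffMap ι y * (HahnSeries.C (β j) * coeffEmb Ω (g j)) =
          HahnSeries.C (β j) * coeffMap ι (y * coeffEmb K (g j)) := by
        intro j
        rw [map_mul, desc_coeffMap_coeffEmb]
        ring
      simp only [h3] at h2
      rw [desc_coeff_sum_C_mul, desc_coeff_sum_C_mul] at h2
      simp only [coeffMap_coeff] at h2
      rw [h2]
      refine Finset.sum_congr rfl fun i _ => ?_
      rw [← desc_coeffMap_coeffEmb ι, coeffMap_coeff]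
    ext k
    have h4 := congrArg lam (h1 k)
    simp only [map_sum, hlin] at h4
    rw [hS, Finset.mul_sum]
    have h5 : ∀ j, y * (HahnSeries.C (lam (β j)) * coeffEmb K (g j)) =
        HahnSeries.C (lam (β j)) * (y * coeffEmb K (g j)) := by
      intro j; ring
    simp only [h5]
    rw [hR, desc_coeff_sum_C_mul, desc_coeff_sum_C_mul]
    exact h4
  have hS0 : S ≠ 0 := by
    intro hS0
    have h6 : S.coeff k₀ = 1 := by
      rw [hS, desc_coeff_sum_C_mul]
      rw [desc_coeff_sum_C_mul] at hlam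
      have h7 : ∀ j, (coeffEmb Ω (g j)).coeff k₀ = ι ((coeffEmb K (g j)).coeff k₀) := by
        intro j
        rw [← desc_coeffMap_coeffEmb ι, coeffMap_coeff]
      simp only [h7, map_sum, hlin] at hlam
      exact hlam
    rw [hS0] at h6
    simp at h6
  have : y = R / S := by
    rw [eq_div_iff hS0, hkey]
  rw [this]
  exact div_mem hRmem hSmem

end

end Fermat.Agent.S29.H991
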