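/-
S29 / DESC support (helper991): elements of an algebraically closed field `Ω` with finite orbit
under `Aut(Ω/K)` are algebraic over `K`.  Mathlib-only.
-/
import Mathlib

set_option autoImplicit false

namespace Fermat.Agent.S29.H991

open MvPolynomial

section Shift

variable (K : Type*) [CommRing K] {ι : Type*} [DecidableEq ι]

/-- The `K`-algebra endomorphism `X i₀ ↦ X i₀ + c`, other variables fixed. -/
noncomputable def shiftHom (i₀ : ι) (c : K) : MvPolynomial ι K →ₐ[K] MvPolynomial ι K :=
  aeval fun i => if i = i₀ then X i + C c else X i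

@[simp] theorem shiftHom_X_self (i₀ : ι) (c : K) : shiftHom K i₀ c (X i₀) = X i₀ + C c := by
  simp [shiftHom]

theorem shiftHom_X_of_ne (i₀ : ι) (c : K) {i : ι} (h : i ≠ i₀) : shiftHom K i₀ c (X i) = X i := by
  simp [shiftHom, h]

theorem shiftHom_comp (i₀ : ι) (c d : K) :
    (shiftHom K i₀ c).comp (shiftHom K i₀ d) = shiftHom K i₀ (c + d) := by
  apply MvPolynomial.algHom_ext
  intro i
  by_cases h : i = i₀
  · subst h
    simp only [AlgHom.comp_apply, shiftHom_X_self, map_add, algHom_C, algebraMap_eq, map_add]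
    ring
  · simp only [AlgHom.comp_apply, shiftHom_X_of_ne K i₀ _ h]

theorem shiftHom_zero (i₀ : ι) : shiftHom K i₀ 0 = AlgHom.id K _ := by
  apply MvPolynomial.algHom_ext
  intro i
  by_cases h : i = i₀
  · subst h; simp
  · simp [shiftHom_X_of_ne K i₀ _ h]

/-- The `K`-algebra automorphism `X i₀ ↦ X i₀ + c`. -/
noncomputable def shiftEquiv (i₀ : ι) (c : K) : MvPolynomial ι K ≃ₐ[K] MvPolynomial ι K :=
  AlgEquiv.ofAlgHom (shiftHom K i₀ c) (shiftHom K i₀ (-c))
    (by rw [shiftHom_comp, add_neg_cancel, shiftHom_zero])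
    (by rw [shiftHom_comp, neg_add_cancel, shiftHom_zero])

@[simp] theorem shiftEquiv_X_self (i₀ : ι) (c : K) : shiftEquiv K i₀ c (X i₀) = X i₀ + C c :=
  shiftHom_X_self K i₀ c

end Shift

section Field

variable {K Ω : Type*} [Field K] [Field Ω] [Algebra K Ω] [IsAlgClosed Ω]

/-- A transcendental element can be translated by any constant by an automorphism of `Ω/K`. -/
theorem exists_algEquiv_add (z : Ω) (hz : Transcendental K z) (c : K) :
    ∃ σ : Ω ≃ₐ[K] Ω, σ z = z + algebraMap K Ω c := by
  classical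
  have hs : AlgebraicIndepOn K id ({z} : Set Ω) := by
    have : AlgebraicIndependent K (fun i : ({z} : Set Ω) => (i : Ω)) :=
      (algebraicIndependent_singleton_iff (R := K) (x := fun i : ({z} : Set Ω) => (i : Ω))
        ⟨z, rfl⟩).2 hz
    exact this
  obtain ⟨t, hst, ht⟩ := exists_isTranscendenceBasis_superset hs
  have hzt : z ∈ t := hst rfl
  set i₀ : t := ⟨z, hzt⟩ with hi₀
  let A := Algebra.adjoin K (Set.range ((↑) : t → Ω))
  have : IsAlgClosure A Ω := IsAlgClosed.isAlgClosure_of_transcendence_basis _ ht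
  let e : A ≃ₐ[K] A := (ht.1.aevalEquiv.symm.trans (shiftEquiv K i₀ c)).trans ht.1.aevalEquiv
  let σ₀ : Ω ≃+* Ω := IsAlgClosure.equivOfEquiv Ω Ω e.toRingEquiv
  have hσ₀ : ∀ a : A, σ₀ (algebraMap A Ω a) = algebraMap A Ω (e a) := fun a =>
    IsAlgClosure.equivOfEquiv_algebraMap Ω Ω e.toRingEquiv a
  have hcomm : ∀ r : K, σ₀ (algebraMap K Ω r) = algebraMap K Ω r := by
    intro r
    have h1 : algebraMap K Ω r = algebraMap A Ω (algebraMap K A r) := rfl
    rw [h1, hσ₀, e.commutes]
  refine ⟨AlgEquiv.ofRingEquiv (f := σ₀) hcomm, ?_⟩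
  have hzA : z = algebraMap A Ω (ht.1.aevalEquiv (X i₀)) := by
    rw [ht.1.algebraMap_aevalEquiv, aeval_X]
  show σ₀ z = _
  conv_lhs => rw [hzA]
  rw [hσ₀]
  have : e (ht.1.aevalEquiv (X i₀)) = ht.1.aevalEquiv (X i₀ + C c) := by
    simp only [e, AlgEquiv.trans_apply, AlgEquiv.symm_apply_apply, shiftEquiv_X_self]
  rw [this, ht.1.algebraMap_aevalEquiv, map_add, aeval_X, aeval_C]

/-- An element of an algebraically closed field `Ω` of characteristic zero whose orbit under
`Aut(Ω/K)` is finite is algebraic over `K`. -/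
theorem isAlgebraic_of_finite_orbit [CharZero K] (z : Ω)
    (hfin : (Set.range fun σ : Ω ≃ₐ[K] Ω => σ z).Finite) : IsAlgebraic K z := by
  by_contra hz
  have hz' : Transcendental K z := hz
  have hinj : Function.Injective (algebraMap K Ω) := (algebraMap K Ω).injective
  have hmem : ∀ n : ℕ, z + algebraMap K Ω (n : K) ∈ Set.range fun σ : Ω ≃ₐ[K] Ω => σ z := by
    intro n
    obtain ⟨σ, hσ⟩ := exists_algEquiv_add z hz' (n : K)
    exact ⟨σ, hσ⟩
  have hinf : (Set.range fun n : ℕ => z + algebraMap K Ω (n : K)).Infinite := by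
    apply Set.infinite_range_of_injective
    intro m n h
    have h' : algebraMap K Ω (m : K) = algebraMap K Ω (n : K) := add_left_cancel h
    exact_mod_cast hinj h'
  exact hinf (hfin.subset (by rintro _ ⟨n, rfl⟩; exact hmem n))

/-- If moreover `K` is algebraically closed, the element lies in (the image of) `K`. -/
theorem mem_range_of_finite_orbit [CharZero K] [IsAlgClosed K] (z : Ω)
    (hfin : (Set.range fun σ : Ω ≃ₐ[K] Ω => σ z).Finite) :
    z ∈ Set.range (algebraMap K Ω) := by
  have hint : IsIntegral K z := (isAlgebraic_of_finite_orbit z hfin).isIntegral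
  have hdeg : (minpoly K z).degree = 1 :=
    IsAlgClosed.degree_eq_one_of_irreducible K (minpoly.irreducible hint)
  exact minpoly.mem_range_of_degree_eq_one K z hdeg

end Field

end Fermat.Agent.S29.H991
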